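/-
MAZ moduli side (helper86, architect): the ALGEBRAIC invariants of a pair `(V, Q)`, `V` a Weierstrass
curve over a field `F`, `Q` a point (of order `p`), which compute the values at the moduli point
`(V, ⟨Q⟩)` of `X₀(p)` of the modular unit `Δ(τ)/Δ(pτ)` and of `j(pτ)`:

  `Uinv V Q p = p¹² ∏_{k=1}^{p-1} ψ₂(kQ)⁴ / Δ^(p-1)`,                  `ψ₂ = 2y + a₁x + a₃`
  `c4q V Q p  = (6 - 5p) c₄ + 720 ∑_{k=1}^{p-1} (x(kQ) + b₂/12)²`,      (`c₄` of `V/⟨Q⟩`, normalised)
  `Dq V Q p   = Δ^p / ∏_{k=1}^{p-1} ψ₂(kQ)⁴`,                            (`Δ` of `V/⟨Q⟩`, normalised)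
  `bq V Q p   = c4q³ / Dq`                                               (`j(V/⟨Q⟩)`).

SHARED DEFINITIONS for the bricks BR (helper18), LOC, RAT, E3-ASM.  Mathlib only.
-/
import Mathlib

set_option autoImplicit false
set_option linter.unusedSectionVars false

open WeierstrassCurve

noncomputable section

namespace Fermat.Agent.MAZ.ModInv

variable {F : Type*} [Field F] [DecidableEq F] (V : WeierstrassCurve F)

/-- `x`-coordinate of a point (`0` at the origin). -/
def xco : V.toAffine.Point → F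
  | .zero => 0
  | .some x _ _ => x

/-- `y`-coordinate of a point (`0` at the origin). -/
def yco : V.toAffine.Point → F
  | .zero => 0
  | .some _ y _ => y

/-- `ψ₂(P) = 2y + a₁x + a₃` (`0` at the origin). -/
def psi2 : V.toAffine.Point → F
  | .zero => 0
  | .some x y _ => 2 * y + V.a₁ * x + V.a₃

@[simp] theorem xco_zero : xco V (0 : V.toAffine.Point) = 0 := rfl
@[simp] theorem yco_zero : yco V (0 : V.toAffine.Point) = 0 := rfl
@[simp] theorem psi2_zero : psi2 V (0 : V.toAffine.Point) = 0 := rfl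

@[simp] theorem xco_some {x y : F} (h : V.toAffine.Nonsingular x y) :
    xco V (Affine.Point.some x y h) = x := rfl

@[simp] theorem yco_some {x y : F} (h : V.toAffine.Nonsingular x y) :
    yco V (Affine.Point.some x y h) = y := rfl

@[simp] theorem psi2_some {x y : F} (h : V.toAffine.Nonsingular x y) :
    psi2 V (Affine.Point.some x y h) = 2 * y + V.a₁ * x + V.a₃ := rfl

theorem psi2_eq (P : V.toAffine.Point) (hP : P ≠ 0) :
    psi2 V P = 2 * yco V P + V.a₁ * xco V P + V.a₃ := by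
  cases P with
  | zero => exact absurd rfl hP
  | some x y h => rfl

/-- `∏_{k=1}^{p-1} ψ₂(kQ)⁴`. -/
def psiProd (Q : V.toAffine.Point) (p : ℕ) : F := ∏ k ∈ Finset.Ico 1 p, psi2 V (k • Q) ^ 4

/-- value of `Δ(τ)/Δ(pτ)` at `(V, ⟨Q⟩)`. -/
def Uinv (Q : V.toAffine.Point) (p : ℕ) : F := (p : F) ^ 12 * psiProd V Q p / V.Δ ^ (p - 1)

/-- normalised `c₄` of the quotient curve. -/
def c4q (Q : V.toAffine.Point) (p : ℕ) : F :=
  (6 - 5 * (p : F)) * V.c₄ + 720 * ∑ k ∈ Finset.Ico 1 p, (xco V (k • Q) + V.b₂ / 12) ^ 2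

/-- normalised `Δ` of the quotient curve. -/
def Dq (Q : V.toAffine.Point) (p : ℕ) : F := V.Δ ^ p / psiProd V Q p

/-- `j`-invariant of the quotient curve. -/
def bq (Q : V.toAffine.Point) (p : ℕ) : F := c4q V Q p ^ 3 / Dq V Q p

end Fermat.Agent.MAZ.ModInv
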