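/-
MAZ moduli side, brick (RAT) (helper86): if `Q` is fixed by `Gal(ℚbar/ℚ)` then every multiple `k • Q`
has rational coordinates, hence the moduli values `ModInv.bq`, `ModInv.Uinv` (and `c4q`, `Dq`,
`psiProd`) lie in the image of `ℚ → ℚbar`.
-/
import Mathlib
import Fermat.Prelude.Def_EllipticCurve_ZeroComponentAt
import Fermat.Agent.MAZ.EF86.ModInv

set_option autoImplicit false

open WeierstrassCurve
open scoped WeierstrassCurve.Affine

noncomputable section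

namespace Fermat.Agent.MAZ.EF86.Rat

open Fermat.Agent.MAZ.ModInv

local notation "Qb" => AlgebraicClosure ℚ

variable (V : WeierstrassCurve ℚ)

/-- the rational numbers inside `ℚbar`. -/
def ratSub : Subfield Qb := (algebraMap ℚ Qb).fieldRange

theorem mem_ratSub_iff (x : Qb) : x ∈ ratSub ↔ ∃ q : ℚ, algebraMap ℚ Qb q = x := Iff.rfl

theorem isAlgClosure_Qb : IsAlgClosure ℚ Qb := by
  have h : (DivisionRing.toRatAlgebra : Algebra ℚ Qb) = AlgebraicClosure.instAlgebra ℚ :=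
    Subsingleton.elim _ _
  rw [h]
  infer_instance

theorem isGalois_Qb : IsGalois ℚ Qb :=
  haveI := isAlgClosure_Qb
  IsAlgClosure.isGalois ℚ Qb

theorem mem_ratSub_of_fixed {x : Qb} (h : ∀ σ : Qb ≃ₐ[ℚ] Qb, σ x = x) : x ∈ ratSub := by
  have := isGalois_Qb
  have := (InfiniteGalois.mem_range_algebraMap_iff_fixed (k := ℚ) (K := Qb) x).mpr h
  exact this

theorem algebraMap_mem_ratSub (q : ℚ) : algebraMap ℚ Qb q ∈ ratSub := ⟨q, rfl⟩

theorem natCast_mem_ratSub (n : ℕ) : (n : Qb) ∈ ratSub := natCast_mem _ n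

/-- coordinates of a Galois-fixed point are rational -/
theorem coords_mem_of_fixed (P : (V⁄Qb).Point) (hP : ∀ σ : Qb ≃ₐ[ℚ] Qb, σ • P = P) :
    xco (V.baseChange Qb) P ∈ ratSub ∧ yco (V.baseChange Qb) P ∈ ratSub := by
  cases P with
  | zero => exact ⟨zero_mem _, zero_mem _⟩
  | some x y h =>
    refine ⟨mem_ratSub_of_fixed fun σ => ?_, mem_ratSub_of_fixed fun σ => ?_⟩
    · have := hP σ
      rw [Affine.Point.algEquiv_smul_def] at this
      simp only [Affine.Point.map_some] at this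
      injection this with h1 h2
    · have := hP σ
      rw [Affine.Point.algEquiv_smul_def] at this
      simp only [Affine.Point.map_some] at this
      injection this with h1 h2

theorem nsmul_fixed {Q : (V⁄Qb).Point} (hQ : ∀ σ : Qb ≃ₐ[ℚ] Qb, σ • Q = Q) (k : ℕ)
    (σ : Qb ≃ₐ[ℚ] Qb) : σ • (k • Q) = k • Q := by
  rw [Affine.Point.algEquiv_smul_def, map_nsmul, ← Affine.Point.algEquiv_smul_def, hQ σ]

/-! ### the curve invariants are rational -/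

theorem a₁_mem : (V.baseChange Qb).a₁ ∈ ratSub := ⟨V.a₁, rfl⟩
theorem a₃_mem : (V.baseChange Qb).a₃ ∈ ratSub := ⟨V.a₃, rfl⟩

theorem b₂_mem : (V.baseChange Qb).b₂ ∈ ratSub := by
  rw [WeierstrassCurve.baseChange, WeierstrassCurve.map_b₂]; exact ⟨V.b₂, rfl⟩

theorem c₄_mem : (V.baseChange Qb).c₄ ∈ ratSub := by
  rw [WeierstrassCurve.baseChange, WeierstrassCurve.map_c₄]; exact ⟨V.c₄, rfl⟩

theorem Δ_mem : (V.baseChange Qb).Δ ∈ ratSub := by
  rw [WeierstrassCurve.baseChange, WeierstrassCurve.map_Δ]; exact ⟨V.Δ, rfl⟩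

/-! ### the moduli values are rational -/

variable {V} {Q : (V⁄Qb).Point}

theorem psi2_mem (hQ : ∀ σ : Qb ≃ₐ[ℚ] Qb, σ • Q = Q) (k : ℕ) :
    psi2 (V.baseChange Qb) (k • Q) ∈ ratSub := by
  obtain ⟨hx, hy⟩ := coords_mem_of_fixed V (k • Q) (nsmul_fixed V hQ k)
  by_cases h0 : k • Q = 0
  · rw [h0]; exact zero_mem _
  · rw [psi2_eq _ _ h0]
    refine add_mem (add_mem (mul_mem ?_ hy) (mul_mem (a₁_mem V) hx)) (a₃_mem V)
    exact natCast_mem_ratSub 2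

theorem xco_mem (hQ : ∀ σ : Qb ≃ₐ[ℚ] Qb, σ • Q = Q) (k : ℕ) :
    xco (V.baseChange Qb) (k • Q) ∈ ratSub :=
  (coords_mem_of_fixed V (k • Q) (nsmul_fixed V hQ k)).1

theorem psiProd_mem (hQ : ∀ σ : Qb ≃ₐ[ℚ] Qb, σ • Q = Q) (p : ℕ) :
    psiProd (V.baseChange Qb) Q p ∈ ratSub :=
  prod_mem fun k _ => pow_mem (psi2_mem hQ k) 4

theorem Uinv_mem (hQ : ∀ σ : Qb ≃ₐ[ℚ] Qb, σ • Q = Q) (p : ℕ) :
    Uinv (V.baseChange Qb) Q p ∈ ratSub :=
  div_mem (mul_mem (pow_mem (natCast_mem_ratSub p) 12) (psiProd_mem hQ p))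
    (pow_mem (Δ_mem V) _)

theorem c4q_mem (hQ : ∀ σ : Qb ≃ₐ[ℚ] Qb, σ • Q = Q) (p : ℕ) :
    c4q (V.baseChange Qb) Q p ∈ ratSub := by
  refine add_mem (mul_mem (sub_mem (natCast_mem_ratSub 6) (mul_mem (natCast_mem_ratSub 5)
    (natCast_mem_ratSub p))) (c₄_mem V)) (mul_mem (natCast_mem_ratSub 720) (sum_mem fun k _ => ?_))
  exact pow_mem (add_mem (xco_mem hQ k) (div_mem (b₂_mem V) (natCast_mem_ratSub 12))) 2

theorem Dq_mem (hQ : ∀ σ : Qb ≃ₐ[ℚ] Qb, σ • Q = Q) (p : ℕ) :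
    Dq (V.baseChange Qb) Q p ∈ ratSub :=
  div_mem (pow_mem (Δ_mem V) _) (psiProd_mem hQ p)

theorem bq_mem (hQ : ∀ σ : Qb ≃ₐ[ℚ] Qb, σ • Q = Q) (p : ℕ) :
    bq (V.baseChange Qb) Q p ∈ ratSub :=
  div_mem (pow_mem (c4q_mem hQ p) 3) (Dq_mem hQ p)

/-- **(RAT)**: the values `j(pτ)` and `Δ(τ)/Δ(pτ)` at the moduli point of a rational pair
`(V, Q)` are rational. -/
theorem exists_rat (hQ : ∀ σ : Qb ≃ₐ[ℚ] Qb, σ • Q = Q) (p : ℕ) :
    ∃ b U : ℚ, bq (V.baseChange Qb) Q p = algebraMap ℚ Qb b ∧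
      Uinv (V.baseChange Qb) Q p = algebraMap ℚ Qb U := by
  obtain ⟨b, hb⟩ := bq_mem hQ p
  obtain ⟨U, hU⟩ := Uinv_mem hQ p
  exact ⟨b, U, hb.symm, hU.symm⟩

end Fermat.Agent.MAZ.EF86.Rat
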