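/-
MAZ / F-DQ (helper86): analytic Vélu form of `℘[L']` for `L' = L + ℤ t₀` (`t₀` of odd order
`p = 2m+1`):

  `℘[L'] z = x + ∑_{k=1}^{m} ((6 x_k² - g₂/2)/(x - x_k) + y_k²/(x - x_k)²)`,
  `x = ℘[L] z`, `x_k = ℘[L] (k t₀)`, `y_k = ℘'[L] (k t₀)`.

The addition theorem of `℘[L]` and the description of the fibres of `℘[L]` are HYPOTHESES
(`AddFormula L`, `EqIff L`; owner of the proofs: helper18, MAZ/F-D1 plan).  Mathlib only.
-/
import Mathlib
import Fermat.Agent.MAZ.EF86.Coset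

set_option autoImplicit false

open scoped PeriodPair

noncomputable section

namespace Fermat.Agent.MAZ.EF86

/-- The addition theorem of `℘[L]` (generic chord case, `x`-coordinate). -/
def AddFormula (L : PeriodPair) : Prop :=
  ∀ z w : ℂ, z ∉ L.lattice → w ∉ L.lattice → z + w ∉ L.lattice → ℘[L] z ≠ ℘[L] w →
    ℘[L] (z + w) = ((℘'[L] z - ℘'[L] w) / (2 * (℘[L] z - ℘[L] w))) ^ 2 - ℘[L] z - ℘[L] w

/-- The fibres of `℘[L]`. -/
def EqIff (L : PeriodPair) : Prop :=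
  ∀ z w : ℂ, z ∉ L.lattice → w ∉ L.lattice → ℘[L] z = ℘[L] w →
    z - w ∈ L.lattice ∨ z + w ∈ L.lattice

variable {L L' : PeriodPair}

/-- Sum of the two translates `z ± t`. -/
theorem pair_formula (hadd : AddFormula L) {z t : ℂ} (hz : z ∉ L.lattice) (ht : t ∉ L.lattice)
    (hzt : z + t ∉ L.lattice) (hzt' : z - t ∉ L.lattice) (hne : ℘[L] z ≠ ℘[L] t) :
    (℘[L] (z + t) - ℘[L] t) + (℘[L] (z - t) - ℘[L] t) =
      (6 * ℘[L] t ^ 2 - L.g₂ / 2) / (℘[L] z - ℘[L] t) + ℘'[L] t ^ 2 / (℘[L] z - ℘[L] t) ^ 2 := by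
  have hnt : -t ∉ L.lattice := fun h => ht (by simpa using neg_mem h)
  have h1 := hadd z t hz ht hzt hne
  have h2 := hadd z (-t) hz hnt (by rwa [← sub_eq_add_neg]) (by rwa [L.weierstrassP_neg])
  rw [← sub_eq_add_neg, L.weierstrassP_neg, L.derivWeierstrassP_neg] at h2
  have hy := L.derivWeierstrassP_sq z hz
  have hb := L.derivWeierstrassP_sq t ht
  have hd : ℘[L] z - ℘[L] t ≠ 0 := sub_ne_zero.mpr hne
  rw [h1, h2]
  field_simp
  linear_combination (2 : ℂ) * hy - 2 * hb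

namespace IsCyclicSup

variable {p : ℕ} {t₀ : ℂ}

theorem notMem_of_notMem (h : IsCyclicSup L L' p t₀) {z : ℂ} (hz : z ∉ L'.lattice) :
    z ∉ L.lattice := fun hz' => hz (h.le hz')

theorem add_natCast_mul_notMem (h : IsCyclicSup L L' p t₀) {z : ℂ} (hz : z ∉ L'.lattice)
    (k : ℕ) : z + (k : ℂ) * t₀ ∉ L.lattice := fun hz' =>
  hz (by simpa using sub_mem (h.le hz') (h.natCast_mul_mem k))

theorem sub_natCast_mul_notMem (h : IsCyclicSup L L' p t₀) {z : ℂ} (hz : z ∉ L'.lattice)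
    (k : ℕ) : z - (k : ℂ) * t₀ ∉ L.lattice := fun hz' =>
  hz (by simpa using add_mem (h.le hz') (h.natCast_mul_mem k))

/-- `℘[L] z ≠ ℘[L] (k t₀)` for `z ∉ L'`. -/
theorem weierstrassP_ne (h : IsCyclicSup L L' p t₀) (heq : EqIff L) {z : ℂ}
    (hz : z ∉ L'.lattice) {k : ℕ} (hk0 : 0 < k) (hkp : k < p) :
    ℘[L] z ≠ ℘[L] ((k : ℂ) * t₀) := by
  intro he
  rcases heq z _ (h.notMem_of_notMem hz) (h.order k hk0 hkp) he with h1 | h1
  · exact h.sub_natCast_mul_notMem hz k h1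
  · exact h.add_natCast_mul_notMem hz k h1

/-- reflection `k ↦ p - k`. -/
theorem weierstrassP_reflect (h : IsCyclicSup L L' p t₀) (z : ℂ) {k : ℕ} (hk : k ≤ p) :
    ℘[L] (z - ((p - k : ℕ) : ℂ) * t₀) = ℘[L] (z + (k : ℂ) * t₀) := by
  have e : z - ((p - k : ℕ) : ℂ) * t₀ = z + (k : ℂ) * t₀ - (p : ℂ) * t₀ := by
    rw [Nat.cast_sub hk]; ring
  rw [e]
  exact L.weierstrassP_sub_coe _ ⟨_, h.pmul⟩

theorem weierstrassP_reflect' (h : IsCyclicSup L L' p t₀) {k : ℕ} (hk : k ≤ p) :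
    ℘[L] (((p - k : ℕ) : ℂ) * t₀) = ℘[L] ((k : ℂ) * t₀) := by
  have := h.weierstrassP_reflect 0 hk
  rw [zero_sub, zero_add, L.weierstrassP_neg] at this
  exact this

/-- **Analytic Vélu form.** -/
theorem velu_form (h : IsCyclicSup L L' p t₀) (hadd : AddFormula L) (heq : EqIff L) {m : ℕ}
    (hp : p = 2 * m + 1) {z : ℂ} (hz : z ∉ L'.lattice) :
    ℘[L'] z = ℘[L] z + ∑ k ∈ Finset.Ico 1 (m + 1),
      ((6 * ℘[L] ((k : ℂ) * t₀) ^ 2 - L.g₂ / 2) / (℘[L] z - ℘[L] ((k : ℂ) * t₀)) +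
        ℘'[L] ((k : ℂ) * t₀) ^ 2 / (℘[L] z - ℘[L] ((k : ℂ) * t₀)) ^ 2) := by
  set f : ℕ → ℂ := fun k => ℘[L] (z - (k : ℂ) * t₀) - ℘[L] ((k : ℂ) * t₀) with hf
  have h0 : f 0 = ℘[L] z := by simp [hf]
  have hsplit : ∑ k ∈ Finset.range p, f k = ℘[L] z + ∑ k ∈ Finset.Ico 1 (m + 1), (f k + f (p - k)) := by
    rw [Finset.sum_range_eq_add_Ico f h.pos, h0]
    congr 1
    rw [← Finset.sum_Ico_consecutive f (show 1 ≤ m + 1 by omega) (show m + 1 ≤ p by omega),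
      Finset.sum_add_distrib]
    congr 1
    have := Finset.sum_Ico_reflect f 1 (m := m + 1) (n := p) (by omega)
    rw [this]
    have e1 : p + 1 - (m + 1) = m + 1 := by omega
    have e2 : p + 1 - 1 = p := by omega
    rw [e1, e2]
  rw [h.weierstrassP_sup z, hsplit]
  congr 1
  refine Finset.sum_congr rfl fun k hk => ?_
  rw [Finset.mem_Ico] at hk
  have hk0 : 0 < k := by omega
  have hkp : k < p := by omega
  have hpair := pair_formula hadd (h.notMem_of_notMem hz) (h.order k hk0 hkp)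
    (h.add_natCast_mul_notMem hz k) (h.sub_natCast_mul_notMem hz k)
    (h.weierstrassP_ne heq hz hk0 hkp)
  rw [← hpair]
  simp only [hf]
  rw [h.weierstrassP_reflect z hkp.le, h.weierstrassP_reflect' hkp.le]
  ring

end IsCyclicSup

end Fermat.Agent.MAZ.EF86
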