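/-
MAZ / F-DQ (helper86): the polynomial side of the analytic Vélu form (pure algebra).

For `x c u : ℕ → ℂ` and `S = {1, …, m}`:
  `D0 = ∏_{k∈S} (X - x_k)`,  `RD = X·D0² + ∑_{k∈S} (c_k (X - x_k) + u_k) · (∏_{j∈S, j≠k} (X - x_j))²`,
so that `RD(x₀) = (x₀ + ∑_k (c_k/(x₀-x_k) + u_k/(x₀-x_k)²)) · D0(x₀)²` off the `x_k`, and
`RD - g·D0²` is monic of degree `2m+1` for every constant `g`.
Mathlib only.
-/
import Mathlib

set_option autoImplicit false

open Polynomial

noncomputable section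

namespace Fermat.Agent.MAZ.EF86.VeluPoly

variable (m : ℕ) (x c u : ℕ → ℂ)

/-- the index set `{1, …, m}` -/
def S : Finset ℕ := Finset.Ico 1 (m + 1)

/-- kernel polynomial (one factor per pair `±t`) -/
def D0 : ℂ[X] := ∏ k ∈ S m, (X - C (x k))

/-- kernel polynomial with the `k`-th factor removed -/
def Ek (k : ℕ) : ℂ[X] := ∏ j ∈ (S m).erase k, (X - C (x j))

/-- numerator of the Vélu map -/
def RD : ℂ[X] :=
  X * D0 m x ^ 2 + ∑ k ∈ S m, (C (c k) * (X - C (x k)) + C (u k)) * Ek m x k ^ 2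

theorem card_S : (S m).card = m := by simp [S]

theorem monic_D0 : (D0 m x).Monic := monic_prod_of_monic _ _ fun k _ => monic_X_sub_C (x k)

theorem natDegree_D0 : (D0 m x).natDegree = m := by
  rw [D0, natDegree_prod_of_monic _ _ fun k _ => monic_X_sub_C (x k)]
  simp [card_S]

theorem monic_Ek (k : ℕ) : (Ek m x k).Monic :=
  monic_prod_of_monic _ _ fun j _ => monic_X_sub_C (x j)

theorem mul_Ek {k : ℕ} (hk : k ∈ S m) : (X - C (x k)) * Ek m x k = D0 m x :=
  Finset.mul_prod_erase (S m) (fun j => X - C (x j)) hk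

theorem natDegree_Ek {k : ℕ} (hk : k ∈ S m) : (Ek m x k).natDegree + 1 = m := by
  have h := congrArg natDegree (mul_Ek m x hk)
  rw [(monic_X_sub_C (x k)).natDegree_mul (monic_Ek m x k), natDegree_X_sub_C, natDegree_D0] at h
  omega

theorem eval_D0 (x₀ : ℂ) : (D0 m x).eval x₀ = ∏ k ∈ S m, (x₀ - x k) := by
  simp [D0, eval_prod]

theorem eval_D0_ne_zero {x₀ : ℂ} (h : ∀ k ∈ S m, x₀ ≠ x k) : (D0 m x).eval x₀ ≠ 0 := by
  rw [eval_D0]
  exact Finset.prod_ne_zero_iff.mpr fun k hk => sub_ne_zero.mpr (h k hk)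

theorem eval_mul_Ek {k : ℕ} (hk : k ∈ S m) (x₀ : ℂ) :
    (x₀ - x k) * (Ek m x k).eval x₀ = (D0 m x).eval x₀ := by
  have h := congrArg (eval x₀) (mul_Ek m x hk)
  simpa using h

/-- evaluation of `RD` off the `x_k` -/
theorem eval_RD {x₀ : ℂ} (h : ∀ k ∈ S m, x₀ ≠ x k) :
    (RD m x c u).eval x₀ =
      (x₀ + ∑ k ∈ S m, (c k / (x₀ - x k) + u k / (x₀ - x k) ^ 2)) * (D0 m x).eval x₀ ^ 2 := by
  rw [RD, eval_add, eval_mul, eval_X, eval_pow, eval_finsetSum, add_mul, Finset.sum_mul]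
  congr 1
  refine Finset.sum_congr rfl fun k hk => ?_
  have hne : x₀ - x k ≠ 0 := sub_ne_zero.mpr (h k hk)
  rw [← eval_mul_Ek m x hk x₀]
  simp only [eval_mul, eval_add, eval_C, eval_sub, eval_X, eval_pow]
  field_simp

/-- `RD - g·D0²` is monic of degree `2m+1`. -/
theorem natDegree_tail_le (g : ℂ) :
    (∑ k ∈ S m, (C (c k) * (X - C (x k)) + C (u k)) * Ek m x k ^ 2 - C g * D0 m x ^ 2).natDegree
      ≤ 2 * m := by
  refine (natDegree_sub_le _ _).trans (max_le ?_ ?_)
  · refine natDegree_sum_le_of_forall_le _ _ fun k hk => ?_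
    have hE := natDegree_Ek m x hk
    have h1 : (C (c k) * (X - C (x k)) + C (u k)).natDegree ≤ 1 := by
      refine natDegree_add_le_of_degree_le ?_ (by simp)
      exact (natDegree_C_mul_le _ _).trans (by simp)
    have h2 : (Ek m x k ^ 2).natDegree ≤ 2 * (m - 1) := by
      refine (natDegree_pow_le_of_le 2 (le_refl _)).trans ?_
      omega
    exact (natDegree_mul_le_of_le h1 h2).trans (by omega)
  · refine (natDegree_C_mul_le _ _).trans ?_
    exact (natDegree_pow_le_of_le 2 (natDegree_D0 m x).le).trans (by omega)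

theorem monic_head : (X * D0 m x ^ 2).Monic := monic_X.mul ((monic_D0 m x).pow 2)

theorem natDegree_head : (X * D0 m x ^ 2).natDegree = 2 * m + 1 := by
  rw [monic_X.natDegree_mul ((monic_D0 m x).pow 2), natDegree_X, (monic_D0 m x).natDegree_pow,
    natDegree_D0]
  ring

theorem Q_eq (g : ℂ) : RD m x c u - C g * D0 m x ^ 2 =
    X * D0 m x ^ 2 +
      (∑ k ∈ S m, (C (c k) * (X - C (x k)) + C (u k)) * Ek m x k ^ 2 - C g * D0 m x ^ 2) := by
  rw [RD]; ring

theorem degree_tail_lt (g : ℂ) :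
    (∑ k ∈ S m, (C (c k) * (X - C (x k)) + C (u k)) * Ek m x k ^ 2 - C g * D0 m x ^ 2).degree
      < (X * D0 m x ^ 2).degree := by
  refine degree_lt_degree ?_
  rw [natDegree_head]
  exact Nat.lt_succ_of_le (natDegree_tail_le m x c u g)

theorem monic_Q (g : ℂ) : (RD m x c u - C g * D0 m x ^ 2).Monic := by
  rw [Q_eq]
  exact (monic_head m x).add_of_left (degree_tail_lt m x c u g)

theorem natDegree_Q (g : ℂ) : (RD m x c u - C g * D0 m x ^ 2).natDegree = 2 * m + 1 := by
  rw [Q_eq, natDegree_add_eq_left_of_degree_lt (degree_tail_lt m x c u g), natDegree_head]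

/-- A monic polynomial of degree `n` vanishing at `n` pairwise distinct points `r_k` is
`∏ (X - r_k)`. -/
theorem eq_prod_of_monic {n : ℕ} {Q : ℂ[X]} (hQ : Q.Monic) (hdeg : Q.natDegree = n) (r : ℕ → ℂ)
    (hinj : ∀ i < n, ∀ j < n, r i = r j → i = j) (hroot : ∀ i < n, Q.eval (r i) = 0) :
    Q = ∏ k ∈ Finset.range n, (X - C (r k)) := by
  classical
  set N : ℂ[X] := ∏ k ∈ Finset.range n, (X - C (r k)) with hN
  have hNm : N.Monic := monic_prod_of_monic _ _ fun k _ => monic_X_sub_C (r k)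
  have hNd : N.natDegree = n := by
    rw [hN, natDegree_prod_of_monic _ _ fun k _ => monic_X_sub_C (r k)]
    simp
  by_cases hn : n = 0
  · subst hn
    rw [hN, Finset.range_zero, Finset.prod_empty]
    exact hQ.natDegree_eq_zero.mp hdeg
  set s : Finset ℂ := (Finset.range n).image r with hs
  have hcard : s.card = n := by
    rw [hs, Finset.card_image_of_injOn, Finset.card_range]
    intro i hi j hj hij
    exact hinj i (Finset.mem_range.mp hi) j (Finset.mem_range.mp hj) hij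
  refine eq_of_degree_sub_lt_of_eval_finset_eq s ?_ ?_
  · rw [hcard]
    have hdeq : Q.degree = N.degree := by
      rw [degree_eq_natDegree hQ.ne_zero, degree_eq_natDegree hNm.ne_zero, hdeg, hNd]
    have hlt := degree_sub_lt_left hdeq hQ.ne_zero (by rw [hQ.leadingCoeff, hNm.leadingCoeff])
    rwa [degree_eq_natDegree hQ.ne_zero, hdeg] at hlt
  · intro v hv
    rw [hs, Finset.mem_image] at hv
    obtain ⟨i, hi, rfl⟩ := hv
    rw [hroot i (Finset.mem_range.mp hi), hN, eval_prod]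
    exact (Finset.prod_eq_zero hi (by simp)).symm

end Fermat.Agent.MAZ.EF86.VeluPoly
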