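/-
MAZ / F-DQ (helper86): the isogeny product formula.  `L' = L + ℤ t₀`, `t₀` of odd order
`p = 2m+1`, `x_k = ℘[L] (k t₀)`.  For every `a ∉ L'` and every `x₀ : ℂ`:

  `RD(x₀) - ℘[L'] a · D0(x₀)² = ∏_{k<p} (x₀ - ℘[L] (a + k t₀))`          (`eval_identity`)

where `RD(℘[L] z) = ℘[L'] z · D0(℘[L] z)²` (`eval_RD_wp`).  Hypotheses: `AddFormula L`, `EqIff L`.
-/
import Mathlib
import Fermat.Agent.MAZ.EF86.Velu
import Fermat.Agent.MAZ.EF86.VeluPoly

set_option autoImplicit false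

open scoped PeriodPair
open Polynomial Filter Topology

noncomputable section

namespace Fermat.Agent.MAZ.EF86

open VeluPoly

variable (L : PeriodPair) (t₀ : ℂ)

/-- `x_k = ℘[L] (k t₀)` -/
def xk (k : ℕ) : ℂ := ℘[L] ((k : ℂ) * t₀)

/-- `c_k = 6 x_k² - g₂/2` (`= ℘''(k t₀)`) -/
def ck (k : ℕ) : ℂ := 6 * xk L t₀ k ^ 2 - L.g₂ / 2

/-- `u_k = ℘'(k t₀)²` -/
def uk (k : ℕ) : ℂ := ℘'[L] ((k : ℂ) * t₀) ^ 2

namespace IsCyclicSup

variable {L t₀} {L' : PeriodPair} {p : ℕ}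

theorem mem_S_lt {m : ℕ} (hp : p = 2 * m + 1) {k : ℕ} (hk : k ∈ S m) : 0 < k ∧ k < p := by
  rw [S, Finset.mem_Ico] at hk
  omega

theorem wp_ne_xk (h : IsCyclicSup L L' p t₀) (heq : EqIff L) {m : ℕ} (hp : p = 2 * m + 1)
    {z : ℂ} (hz : z ∉ L'.lattice) : ∀ k ∈ S m, ℘[L] z ≠ xk L t₀ k := fun _ hk =>
  h.weierstrassP_ne heq hz (mem_S_lt hp hk).1 (mem_S_lt hp hk).2

/-- `RD(℘ z) = ℘[L'] z · D0(℘ z)²`. -/
theorem eval_RD_wp (h : IsCyclicSup L L' p t₀) (hadd : AddFormula L) (heq : EqIff L) {m : ℕ}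
    (hp : p = 2 * m + 1) {z : ℂ} (hz : z ∉ L'.lattice) :
    (RD m (xk L t₀) (ck L t₀) (uk L t₀)).eval (℘[L] z) =
      ℘[L'] z * (D0 m (xk L t₀)).eval (℘[L] z) ^ 2 := by
  rw [eval_RD m _ _ _ (h.wp_ne_xk heq hp hz), h.velu_form hadd heq hp hz]
  rfl

theorem add_natCast_mul_notMem' (h : IsCyclicSup L L' p t₀) {a : ℂ} (ha : a ∉ L'.lattice)
    (k : ℕ) : a + (k : ℂ) * t₀ ∉ L'.lattice := fun hz' =>
  ha (by simpa using sub_mem hz' (h.natCast_mul_mem k))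

theorem weierstrassP'_add (h : IsCyclicSup L L' p t₀) (a : ℂ) (k : ℕ) :
    ℘[L'] (a + (k : ℂ) * t₀) = ℘[L'] a :=
  L'.weierstrassP_add_coe a ⟨_, h.natCast_mul_mem k⟩

/-- The product formula for generic `a`. -/
theorem poly_identity (h : IsCyclicSup L L' p t₀) (hadd : AddFormula L) (heq : EqIff L) {m : ℕ}
    (hp : p = 2 * m + 1) {a : ℂ} (ha : a ∉ L'.lattice) (h2a : 2 * a ∉ L'.lattice) :
    RD m (xk L t₀) (ck L t₀) (uk L t₀) - C (℘[L'] a) * D0 m (xk L t₀) ^ 2 =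
      ∏ k ∈ Finset.range p, (X - C (℘[L] (a + (k : ℂ) * t₀))) := by
  refine eq_prod_of_monic (monic_Q m _ _ _ _) (by rw [natDegree_Q, hp])
    (fun k => ℘[L] (a + (k : ℂ) * t₀)) ?_ ?_
  · intro i hi j hj hij
    rcases heq _ _ (h.notMem_of_notMem (h.add_natCast_mul_notMem' ha i))
      (h.notMem_of_notMem (h.add_natCast_mul_notMem' ha j)) hij with h1 | h1
    · refine h.eq_of_sub_mem hi hj ?_
      have e : ((i : ℂ) - j) * t₀ = a + (i : ℂ) * t₀ - (a + (j : ℂ) * t₀) := by ring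
      rw [e]; exact h1
    · exfalso
      apply h2a
      have e : 2 * a = (a + (i : ℂ) * t₀ + (a + (j : ℂ) * t₀)) - ((i + j : ℕ) : ℂ) * t₀ := by
        push_cast; ring
      rw [e]
      exact sub_mem (h.le h1) (h.natCast_mul_mem _)
  · intro i _
    rw [eval_sub, eval_mul, eval_C, eval_pow,
      h.eval_RD_wp hadd heq hp (h.add_natCast_mul_notMem' ha i), h.weierstrassP'_add]
    ring

theorem continuousAt_wp (L : PeriodPair) {a : ℂ} (ha : a ∉ L.lattice) : ContinuousAt ℘[L] a :=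
  (L.differentiableOn_weierstrassP.differentiableAt
    (L.isClosed_lattice.isOpen_compl.mem_nhds ha)).continuousAt

theorem eventually_generic (L' : PeriodPair) (a : ℂ) :
    ∀ᶠ a' in 𝓝[≠] a, a' ∉ L'.lattice ∧ 2 * a' ∉ L'.lattice := by
  have h1 : ∀ᶠ a' in 𝓝 a, a' ∉ (↑L'.lattice \ {a} : Set ℂ) :=
    L'.compl_lattice_sdiff_singleton_mem_nhds a
  have h2 : ∀ᶠ a' in 𝓝 a, 2 * a' ∉ (↑L'.lattice \ {2 * a} : Set ℂ) := by
    have hc : ContinuousAt (fun a' : ℂ => 2 * a') a := by fun_prop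
    exact hc.eventually (L'.compl_lattice_sdiff_singleton_mem_nhds (2 * a))
  have h3 : ∀ᶠ a' in 𝓝[≠] a, a' ≠ a := self_mem_nhdsWithin
  filter_upwards [h1.filter_mono nhdsWithin_le_nhds, h2.filter_mono nhdsWithin_le_nhds, h3]
    with a' h1' h2' h3'
  constructor
  · intro hm; exact h1' ⟨hm, h3'⟩
  · intro hm
    refine h2' ⟨hm, ?_⟩
    simp only [Set.mem_singleton_iff]
    intro he
    exact h3' (by linear_combination he / 2)

/-- **The product formula**, evaluated at `x₀`, for all `a ∉ L'`. -/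
theorem eval_identity (h : IsCyclicSup L L' p t₀) (hadd : AddFormula L) (heq : EqIff L) {m : ℕ}
    (hp : p = 2 * m + 1) {a : ℂ} (ha : a ∉ L'.lattice) (x₀ : ℂ) :
    (RD m (xk L t₀) (ck L t₀) (uk L t₀)).eval x₀ - ℘[L'] a * (D0 m (xk L t₀)).eval x₀ ^ 2 =
      ∏ k ∈ Finset.range p, (x₀ - ℘[L] (a + (k : ℂ) * t₀)) := by
  set F : ℂ → ℂ := fun a' =>
    (RD m (xk L t₀) (ck L t₀) (uk L t₀)).eval x₀ - ℘[L'] a' * (D0 m (xk L t₀)).eval x₀ ^ 2 -
      ∏ k ∈ Finset.range p, (x₀ - ℘[L] (a' + (k : ℂ) * t₀)) with hF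
  have hcont : ContinuousAt F a := by
    refine ContinuousAt.sub (ContinuousAt.sub continuousAt_const
      ((continuousAt_wp L' ha).mul continuousAt_const)) ?_
    refine tendsto_finsetProd _ fun k _ => ContinuousAt.tendsto (continuousAt_const.sub ?_)
    have hk : ContinuousAt ℘[L] (a + (k : ℂ) * t₀) :=
      continuousAt_wp L (h.notMem_of_notMem (h.add_natCast_mul_notMem' ha k))
    exact ContinuousAt.comp (f := fun a' : ℂ => a' + (k : ℂ) * t₀) hk (by fun_prop)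
  have hzero : ∀ᶠ a' in 𝓝[≠] a, F a' = 0 := by
    filter_upwards [eventually_generic L' a] with a' ha'
    have hpoly := congrArg (eval x₀) (h.poly_identity hadd heq hp ha'.1 ha'.2)
    simp only [eval_sub, eval_mul, eval_C, eval_pow, eval_prod, eval_X] at hpoly
    simp only [hF]
    rw [hpoly, sub_self]
  have hlim1 : Tendsto F (𝓝[≠] a) (𝓝 (F a)) := hcont.tendsto.mono_left nhdsWithin_le_nhds
  have hlim2 : Tendsto F (𝓝[≠] a) (𝓝 0) :=
    (tendsto_const_nhds (x := (0 : ℂ))).congr' (hzero.mono fun _ h => h.symm)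
  have hFa : F a = 0 := tendsto_nhds_unique hlim1 hlim2
  simp only [hF] at hFa
  exact sub_eq_zero.mp hFa

end IsCyclicSup

end Fermat.Agent.MAZ.EF86
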