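/-
MAZ / F-DQ (helper86): **the discriminant quotient formula** (DELTA-QUOT).

`L' = L + ℤ t₀`, `t₀` of exact odd order `p = 2m+1` modulo `L`, `Δ(L) = g₂³ - 27 g₃²`:

  `Δ(L') · ∏_{k=1}^{m} ℘'[L] (k t₀)⁸ = Δ(L)^p`,     `Δ(L') · ∏_{k=1}^{p-1} ℘'[L] (k t₀)⁴ = Δ(L)^p`.

Hypotheses: `AddFormula L`, `EqIff L` (addition theorem and fibres of `℘[L]`; see `Velu.lean`).
-/
import Mathlib
import Fermat.Agent.MAZ.EF86.Product
import Fermat.Agent.MAZ.EF86.HalfPeriod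

set_option autoImplicit false

open scoped PeriodPair
open Polynomial

noncomputable section

namespace Fermat.Agent.MAZ.EF86

open VeluPoly

/-- The standard half-periods `ω₁/2, ω₂/2, (ω₁+ω₂)/2`. -/
theorem halfTriple_std (L : PeriodPair) :
    HalfTriple L (L.ω₁ / 2) (L.ω₂ / 2) ((L.ω₁ + L.ω₂) / 2) := by
  have key : ∀ α β : ℚ, ¬ (α.den = 1 ∧ β.den = 1) → (α : ℂ) * L.ω₁ + (β : ℂ) * L.ω₂ ∉ L.lattice :=
    fun α β hαβ => (PeriodPair.mul_ω₁_add_mul_ω₂_mem_lattice (L := L)).not.mpr hαβ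
  have keyI : ∀ a b : ℤ, (a : ℂ) * L.ω₁ + (b : ℂ) * L.ω₂ ∈ L.lattice := fun a b => by
    have := (PeriodPair.mul_ω₁_add_mul_ω₂_mem_lattice (L := L) (α := a) (β := b)).mpr (by simp)
    simpa using this
  refine ⟨L.ω₁_div_two_notMem_lattice, L.ω₂_div_two_notMem_lattice, ?_, ?_, ?_, ?_, ?_, ?_, ?_⟩
  · have := key (1 / 2) (1 / 2) (by norm_num)
    convert this using 2; push_cast; ring
  · have := keyI 1 0; convert this using 2; push_cast; ring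
  · have := keyI 0 1; convert this using 2; push_cast; ring
  · have := keyI 1 1; convert this using 2; push_cast; ring
  · have := key (1 / 2) (-1 / 2) (by norm_num)
    convert this using 2; push_cast; ring
  · have := key 0 (-1 / 2) (by norm_num)
    convert this using 2; push_cast; ring
  · have := key (-1 / 2) 0 (by norm_num)
    convert this using 2; push_cast; ring

namespace IsCyclicSup

variable {L L' : PeriodPair} {p : ℕ} {t₀ : ℂ}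

/-- A half-period of `L` lying in `L'` lies in `L` (`p` odd). -/
theorem mem_of_two_mul_mem (h : IsCyclicSup L L' p t₀) {m : ℕ} (hp : p = 2 * m + 1) {v : ℂ}
    (h2 : 2 * v ∈ L.lattice) (hv : v ∈ L'.lattice) : v ∈ L.lattice := by
  obtain ⟨k, -, hmem⟩ := h.cover v hv
  have h1 : (p : ℂ) * (v - (k : ℂ) * t₀) ∈ L.lattice := by
    have := L.lattice.smul_mem (p : ℤ) hmem
    simpa [zsmul_eq_mul] using this
  have h2' : (k : ℂ) * ((p : ℂ) * t₀) ∈ L.lattice := by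
    have := L.lattice.smul_mem (k : ℤ) h.pmul
    simpa [zsmul_eq_mul] using this
  have h3 : (m : ℂ) * (2 * v) ∈ L.lattice := by
    have := L.lattice.smul_mem (m : ℤ) h2
    simpa [zsmul_eq_mul] using this
  have e : v = (p : ℂ) * (v - (k : ℂ) * t₀) + (k : ℂ) * ((p : ℂ) * t₀) - (m : ℂ) * (2 * v) := by
    rw [hp]; push_cast; ring
  rw [e]
  exact sub_mem (add_mem h1 h2') h3

/-- Half-periods of `L` are half-periods of `L'`. -/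
theorem halfTriple (h : IsCyclicSup L L' p t₀) {m : ℕ} (hp : p = 2 * m + 1) {T₁ T₂ T₃ : ℂ}
    (hT : HalfTriple L T₁ T₂ T₃) : HalfTriple L' T₁ T₂ T₃ where
  notMem₁ := fun hm => hT.notMem₁ (h.mem_of_two_mul_mem hp hT.two₁ hm)
  notMem₂ := fun hm => hT.notMem₂ (h.mem_of_two_mul_mem hp hT.two₂ hm)
  notMem₃ := fun hm => hT.notMem₃ (h.mem_of_two_mul_mem hp hT.two₃ hm)
  two₁ := h.le hT.two₁
  two₂ := h.le hT.two₂
  two₃ := h.le hT.two₃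
  sub₁₂ := fun hm => hT.sub₁₂ (h.mem_of_two_mul_mem hp
    (by have := sub_mem hT.two₁ hT.two₂; rwa [← mul_sub] at this) hm)
  sub₁₃ := fun hm => hT.sub₁₃ (h.mem_of_two_mul_mem hp
    (by have := sub_mem hT.two₁ hT.two₃; rwa [← mul_sub] at this) hm)
  sub₂₃ := fun hm => hT.sub₂₃ (h.mem_of_two_mul_mem hp
    (by have := sub_mem hT.two₂ hT.two₃; rwa [← mul_sub] at this) hm)

/-- `P_T = ∏_{k=1}^m (x_k - ℘ T)` -/
def PT (L : PeriodPair) (t₀ : ℂ) (m : ℕ) (T : ℂ) : ℂ := ∏ k ∈ S m, (xk L t₀ k - ℘[L] T)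

theorem xk_ne (h : IsCyclicSup L L' p t₀) (heq : EqIff L) {m : ℕ} (hp : p = 2 * m + 1) {T : ℂ}
    (hT : T ∉ L.lattice) (h2 : 2 * T ∈ L.lattice) {k : ℕ} (hk : k ∈ S m) :
    xk L t₀ k ≠ ℘[L] T := by
  have hT' : T ∉ L'.lattice := fun hm => hT (h.mem_of_two_mul_mem hp h2 hm)
  exact (h.weierstrassP_ne heq hT' (mem_S_lt hp hk).1 (mem_S_lt hp hk).2).symm

theorem PT_ne_zero (h : IsCyclicSup L L' p t₀) (heq : EqIff L) {m : ℕ} (hp : p = 2 * m + 1) {T : ℂ}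
    (hT : T ∉ L.lattice) (h2 : 2 * T ∈ L.lattice) : PT L t₀ m T ≠ 0 :=
  Finset.prod_ne_zero_iff.mpr fun _ hk => sub_ne_zero.mpr (h.xk_ne heq hp hT h2 hk)

/-- reflection for the translates by a half-period -/
theorem wp_half_reflect (h : IsCyclicSup L L' p t₀) {T : ℂ} (h2 : 2 * T ∈ L.lattice) {k : ℕ}
    (hk : k ≤ p) : ℘[L] (T + ((p - k : ℕ) : ℂ) * t₀) = ℘[L] (T + (k : ℂ) * t₀) := by
  have e : T + ((p - k : ℕ) : ℂ) * t₀ = -(T + (k : ℂ) * t₀) + (2 * T + (p : ℂ) * t₀) := by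
    rw [Nat.cast_sub hk]; ring
  rw [e, L.weierstrassP_add_coe _ ⟨_, add_mem h2 h.pmul⟩, L.weierstrassP_neg]

/-- The pairwise identity `(e'₁ - e'₂) P₁² P₂² = (e₁ - e₂)^p P₃²`. -/
theorem pair_identity (h : IsCyclicSup L L' p t₀) (hadd : AddFormula L) (heq : EqIff L) {m : ℕ}
    (hp : p = 2 * m + 1) {T₁ T₂ T₃ : ℂ} (hT : HalfTriple L T₁ T₂ T₃) :
    (℘[L'] T₁ - ℘[L'] T₂) * PT L t₀ m T₁ ^ 2 * PT L t₀ m T₂ ^ 2 =
      (℘[L] T₁ - ℘[L] T₂) ^ p * PT L t₀ m T₃ ^ 2 := by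
  have hT' := h.halfTriple hp hT
  have hid := h.eval_identity hadd heq hp hT'.notMem₂ (℘[L] T₁)
  rw [h.eval_RD_wp hadd heq hp hT'.notMem₁] at hid
  -- the kernel polynomial at `e₁`
  have hD : (D0 m (xk L t₀)).eval (℘[L] T₁) ^ 2 = PT L t₀ m T₁ ^ 2 := by
    rw [eval_D0, PT, ← Finset.prod_pow, ← Finset.prod_pow]
    exact Finset.prod_congr rfl fun k _ => by ring
  rw [hD] at hid
  -- the product on the right
  set f : ℕ → ℂ := fun k => ℘[L] T₁ - ℘[L] (T₂ + (k : ℂ) * t₀) with hf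
  have hf0 : f 0 = ℘[L] T₁ - ℘[L] T₂ := by simp [hf]
  have hrefl : ∀ k, k ≤ p → f (p - k) = f k := fun k hk => by
    simp only [hf]; rw [h.wp_half_reflect hT.two₂ hk]
  have hprod : ∏ k ∈ Finset.range p, f k = f 0 * ∏ k ∈ S m, f k ^ 2 := by
    rw [Finset.prod_range_eq_mul_Ico f h.pos]
    congr 1
    rw [← Finset.prod_Ico_consecutive f (show 1 ≤ m + 1 by omega) (show m + 1 ≤ p by omega)]
    have hr := Finset.prod_Ico_reflect f 1 (m := m + 1) (n := p) (by omega)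
    have e1 : p + 1 - (m + 1) = m + 1 := by omega
    have e2 : p + 1 - 1 = p := by omega
    rw [e1, e2] at hr
    rw [← hr, ← Finset.prod_mul_distrib]
    refine Finset.prod_congr rfl fun k hk => ?_
    have hk' := mem_S_lt hp hk
    rw [hrefl k (by omega)]; ring
  -- each factor
  have hfk : ∀ k ∈ S m, f k * (xk L t₀ k - ℘[L] T₂) =
      (℘[L] T₁ - ℘[L] T₂) * (xk L t₀ k - ℘[L] T₃) := by
    intro k hk
    have hk' := mem_S_lt hp hk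
    have hz : (k : ℂ) * t₀ ∉ L.lattice := h.order k hk'.1 hk'.2
    have hzT : (k : ℂ) * t₀ + T₂ ∉ L.lattice := fun hm =>
      hT'.notMem₂ (by
        have := sub_mem (h.le hm) (h.natCast_mul_mem k)
        simpa using this)
    have hne : ℘[L] ((k : ℂ) * t₀) ≠ ℘[L] T₂ := h.xk_ne heq hp hT.notMem₂ hT.two₂ hk
    have htr := hT.swap₁₂.translate₁ hadd heq hz hzT hne
    simp only [hf, xk]
    rw [add_comm T₂]
    linear_combination -htr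
  have hA : (∏ k ∈ S m, f k ^ 2) * PT L t₀ m T₂ ^ 2 =
      (℘[L] T₁ - ℘[L] T₂) ^ (2 * m) * PT L t₀ m T₃ ^ 2 := by
    rw [PT, PT, ← Finset.prod_pow, ← Finset.prod_pow, ← Finset.prod_mul_distrib]
    have : ∀ k ∈ S m, f k ^ 2 * (xk L t₀ k - ℘[L] T₂) ^ 2 =
        (℘[L] T₁ - ℘[L] T₂) ^ 2 * (xk L t₀ k - ℘[L] T₃) ^ 2 := fun k hk => by
      rw [← mul_pow, hfk k hk, mul_pow]
    rw [Finset.prod_congr rfl this, Finset.prod_mul_distrib, Finset.prod_const, card_S, ← pow_mul]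
  rw [hprod, hf0] at hid
  have hid' : (℘[L'] T₁ - ℘[L'] T₂) * PT L t₀ m T₁ ^ 2 =
      (℘[L] T₁ - ℘[L] T₂) * ∏ k ∈ S m, f k ^ 2 := by linear_combination hid
  calc (℘[L'] T₁ - ℘[L'] T₂) * PT L t₀ m T₁ ^ 2 * PT L t₀ m T₂ ^ 2
      = (℘[L] T₁ - ℘[L] T₂) * ((∏ k ∈ S m, f k ^ 2) * PT L t₀ m T₂ ^ 2) := by rw [hid']; ring
    _ = (℘[L] T₁ - ℘[L] T₂) ^ p * PT L t₀ m T₃ ^ 2 := by rw [hA, hp, pow_succ]; ring

/-- `4^m P₁ P₂ P₃ = ∏_{k=1}^m ℘'(k t₀)²`. -/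
theorem prod_PT (h : IsCyclicSup L L' p t₀) (heq : EqIff L) {m : ℕ} (hp : p = 2 * m + 1)
    {T₁ T₂ T₃ : ℂ} (hT : HalfTriple L T₁ T₂ T₃) :
    ∏ k ∈ S m, ℘'[L] ((k : ℂ) * t₀) ^ 2 =
      4 ^ m * (PT L t₀ m T₁ * PT L t₀ m T₂ * PT L t₀ m T₃) := by
  have : ∀ k ∈ S m, ℘'[L] ((k : ℂ) * t₀) ^ 2 =
      4 * ((xk L t₀ k - ℘[L] T₁) * (xk L t₀ k - ℘[L] T₂) * (xk L t₀ k - ℘[L] T₃)) := fun k hk =>
    hT.deriv_sq heq (h.order k (mem_S_lt hp hk).1 (mem_S_lt hp hk).2)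
  rw [Finset.prod_congr rfl this, Finset.prod_mul_distrib, Finset.prod_const, card_S,
    Finset.prod_mul_distrib, Finset.prod_mul_distrib]
  rfl

/-- **DELTA-QUOT**, product over `k = 1, …, m`. -/
theorem delta_quot_of_halfTriple (h : IsCyclicSup L L' p t₀) (hadd : AddFormula L) (heq : EqIff L)
    {m : ℕ} (hp : p = 2 * m + 1) {T₁ T₂ T₃ : ℂ} (hT : HalfTriple L T₁ T₂ T₃) :
    (L'.g₂ ^ 3 - 27 * L'.g₃ ^ 2) * ∏ k ∈ Finset.Ico 1 (m + 1), ℘'[L] ((k : ℂ) * t₀) ^ 8 =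
      (L.g₂ ^ 3 - 27 * L.g₃ ^ 2) ^ p := by
  have hT' := h.halfTriple hp hT
  have I12 := h.pair_identity hadd heq hp hT
  have I13 := h.pair_identity hadd heq hp hT.swap₂₃
  have I23 := h.pair_identity hadd heq hp hT.swap₁₂.swap₂₃
  have hP1 := h.PT_ne_zero heq hp hT.notMem₁ hT.two₁
  have hP2 := h.PT_ne_zero heq hp hT.notMem₂ hT.two₂
  have hP3 := h.PT_ne_zero heq hp hT.notMem₃ hT.two₃
  have he12 := sub_ne_zero.mpr (hT.e₁₂ heq)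
  have he13 := sub_ne_zero.mpr (hT.e₁₃ heq)
  have he23 := sub_ne_zero.mpr (hT.e₂₃ heq)
  -- distinctness of the `e'`
  have he12' : ℘[L'] T₁ ≠ ℘[L'] T₂ := by
    intro he
    rw [he, sub_self, zero_mul, zero_mul] at I12
    exact mul_ne_zero (pow_ne_zero _ he12) (pow_ne_zero _ hP3) I12.symm
  have he13' : ℘[L'] T₁ ≠ ℘[L'] T₃ := by
    intro he
    rw [he, sub_self, zero_mul, zero_mul] at I13
    exact mul_ne_zero (pow_ne_zero _ he13) (pow_ne_zero _ hP2) I13.symm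
  have he23' : ℘[L'] T₂ ≠ ℘[L'] T₃ := by
    intro he
    rw [he, sub_self, zero_mul, zero_mul] at I23
    exact mul_ne_zero (pow_ne_zero _ he23) (pow_ne_zero _ hP1) I23.symm
  have hΔ' := Cubic.disc_eq (cubic_of_two_mul_mem hT'.notMem₁ hT'.two₁)
    (cubic_of_two_mul_mem hT'.notMem₂ hT'.two₂) (cubic_of_two_mul_mem hT'.notMem₃ hT'.two₃)
    he12' he13' he23'
  have hΔ := hT.disc_eq heq
  have hU := h.prod_PT heq hp hT
  -- abbreviations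
  set P₁ := PT L t₀ m T₁
  set P₂ := PT L t₀ m T₂
  set P₃ := PT L t₀ m T₃
  set e₁ := ℘[L] T₁
  set e₂ := ℘[L] T₂
  set e₃ := ℘[L] T₃
  set e₁' := ℘[L'] T₁
  set e₂' := ℘[L'] T₂
  set e₃' := ℘[L'] T₃
  -- `E' Pi^2 = E^p`
  have hPi : P₁ * P₂ * P₃ ≠ 0 := mul_ne_zero (mul_ne_zero hP1 hP2) hP3
  have hE : (e₁' - e₂') * (e₁' - e₃') * (e₂' - e₃') * (P₁ * P₂ * P₃) ^ 2 =
      ((e₁ - e₂) * (e₁ - e₃) * (e₂ - e₃)) ^ p := by
    have hmul : ((e₁' - e₂') * (e₁' - e₃') * (e₂' - e₃') * (P₁ * P₂ * P₃) ^ 2) *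
        (P₁ * P₂ * P₃) ^ 2 = ((e₁ - e₂) * (e₁ - e₃) * (e₂ - e₃)) ^ p * (P₁ * P₂ * P₃) ^ 2 := by
      have hpow : ((e₁ - e₂) * (e₁ - e₃) * (e₂ - e₃)) ^ p =
          (e₁ - e₂) ^ p * (e₁ - e₃) ^ p * (e₂ - e₃) ^ p := by rw [mul_pow, mul_pow]
      rw [hpow]
      linear_combination (e₁' - e₃') * P₁ ^ 2 * P₃ ^ 2 * (e₂' - e₃') * P₂ ^ 2 * P₃ ^ 2 * I12 +
        (e₁ - e₂) ^ p * P₃ ^ 2 * (e₂' - e₃') * P₂ ^ 2 * P₃ ^ 2 * I13 +
        (e₁ - e₂) ^ p * P₃ ^ 2 * (e₁ - e₃) ^ p * P₂ ^ 2 * I23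
    exact mul_right_cancel₀ (pow_ne_zero 2 hPi) hmul
  have h8 : ∏ k ∈ Finset.Ico 1 (m + 1), ℘'[L] ((k : ℂ) * t₀) ^ 8 =
      (∏ k ∈ S m, ℘'[L] ((k : ℂ) * t₀) ^ 2) ^ 4 := by
    rw [← Finset.prod_pow]
    exact Finset.prod_congr rfl fun k _ => by ring
  rw [h8, hU, hΔ', hΔ]
  have h16 : (16 : ℂ) ^ p = 16 * (4 ^ m) ^ 4 := by
    have h4 : ((4 : ℂ) ^ m) ^ 4 = (16 : ℂ) ^ (2 * m) := by
      rw [← pow_mul, pow_mul 16 2 m, mul_comm m 4, pow_mul]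
      norm_num
    rw [h4, hp, pow_succ]; ring
  calc 16 * ((e₁' - e₂') ^ 2 * (e₁' - e₃') ^ 2 * (e₂' - e₃') ^ 2) * (4 ^ m * (P₁ * P₂ * P₃)) ^ 4
      = 16 * (4 ^ m) ^ 4 *
          ((e₁' - e₂') * (e₁' - e₃') * (e₂' - e₃') * (P₁ * P₂ * P₃) ^ 2) ^ 2 := by ring
    _ = 16 ^ p * (((e₁ - e₂) * (e₁ - e₃) * (e₂ - e₃)) ^ p) ^ 2 := by rw [hE, h16]
    _ = (16 * ((e₁ - e₂) ^ 2 * (e₁ - e₃) ^ 2 * (e₂ - e₃) ^ 2)) ^ p := by
      rw [← pow_mul, mul_comm p 2, pow_mul, mul_pow 16]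
      congr 2
      ring

/-- **DELTA-QUOT.** -/
theorem delta_quot (h : IsCyclicSup L L' p t₀) (hadd : AddFormula L) (heq : EqIff L)
    {m : ℕ} (hp : p = 2 * m + 1) :
    (L'.g₂ ^ 3 - 27 * L'.g₃ ^ 2) * ∏ k ∈ Finset.Ico 1 (m + 1), ℘'[L] ((k : ℂ) * t₀) ^ 8 =
      (L.g₂ ^ 3 - 27 * L.g₃ ^ 2) ^ p :=
  h.delta_quot_of_halfTriple hadd heq hp (halfTriple_std L)

theorem deriv_reflect (h : IsCyclicSup L L' p t₀) {k : ℕ} (hk : k ≤ p) :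
    ℘'[L] (((p - k : ℕ) : ℂ) * t₀) = -℘'[L] ((k : ℂ) * t₀) := by
  have e : ((p - k : ℕ) : ℂ) * t₀ = -((k : ℂ) * t₀) + (p : ℂ) * t₀ := by
    rw [Nat.cast_sub hk]; ring
  rw [e, L.derivWeierstrassP_add_coe _ ⟨_, h.pmul⟩, L.derivWeierstrassP_neg]

/-- **DELTA-QUOT**, product over all `k = 1, …, p-1`. -/
theorem delta_quot' (h : IsCyclicSup L L' p t₀) (hadd : AddFormula L) (heq : EqIff L)
    {m : ℕ} (hp : p = 2 * m + 1) :
    (L'.g₂ ^ 3 - 27 * L'.g₃ ^ 2) * ∏ k ∈ Finset.Ico 1 p, ℘'[L] ((k : ℂ) * t₀) ^ 4 =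
      (L.g₂ ^ 3 - 27 * L.g₃ ^ 2) ^ p := by
  rw [← h.delta_quot hadd heq hp]
  congr 1
  set f : ℕ → ℂ := fun k => ℘'[L] ((k : ℂ) * t₀) ^ 4 with hf
  rw [← Finset.prod_Ico_consecutive f (show 1 ≤ m + 1 by omega) (show m + 1 ≤ p by omega)]
  have hr := Finset.prod_Ico_reflect f 1 (m := m + 1) (n := p) (by omega)
  have e1 : p + 1 - (m + 1) = m + 1 := by omega
  have e2 : p + 1 - 1 = p := by omega
  rw [e1, e2] at hr
  rw [← hr, ← Finset.prod_mul_distrib]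
  refine Finset.prod_congr rfl fun k hk => ?_
  rw [Finset.mem_Ico] at hk
  simp only [hf]
  rw [h.deriv_reflect (show k ≤ p by omega)]
  ring

end IsCyclicSup

end Fermat.Agent.MAZ.EF86
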