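/-
MAZ / F-DQ (helper86): DELTA-QUOT, UNCONDITIONAL (the addition theorem and the fibres of `℘` are
helper18's `Unif18.wp_add`, `Unif18.wp_eq_iff`), and the standard instance of `IsCyclicSup`:
`L'.ω₁ = L.ω₁`, `L.ω₂ = p L'.ω₂`, `t₀ = L'.ω₂`.
-/
import Mathlib
import Fermat.Agent.MAZ.EF86.Main
import Fermat.Agent.MAZ.Unif18.Curve

set_option autoImplicit false

open scoped PeriodPair

noncomputable section

namespace Fermat.Agent.MAZ.EF86

theorem addFormula (L : PeriodPair) : AddFormula L := fun _ _ hz hw hzw hne =>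
  Unif18.wp_add L hz hw hzw hne

theorem eqIff (L : PeriodPair) : EqIff L := fun _ _ hz hw h =>
  (Unif18.wp_eq_iff L hz hw).mp h

namespace IsCyclicSup

variable {L L' : PeriodPair} {p : ℕ} {t₀ : ℂ}

/-- **DELTA-QUOT** (unconditional): `Δ(L') ∏_{k=1}^{p-1} ℘'[L](k t₀)⁴ = Δ(L)^p`. -/
theorem delta_quot_uncond (h : IsCyclicSup L L' p t₀) {m : ℕ} (hp : p = 2 * m + 1) :
    (L'.g₂ ^ 3 - 27 * L'.g₃ ^ 2) * ∏ k ∈ Finset.Ico 1 p, ℘'[L] ((k : ℂ) * t₀) ^ 4 =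
      (L.g₂ ^ 3 - 27 * L.g₃ ^ 2) ^ p :=
  h.delta_quot' (addFormula L) (eqIff L) hp

/-- the analytic Vélu form (unconditional) -/
theorem velu_form_uncond (h : IsCyclicSup L L' p t₀) {m : ℕ} (hp : p = 2 * m + 1) {z : ℂ}
    (hz : z ∉ L'.lattice) :
    ℘[L'] z = ℘[L] z + ∑ k ∈ Finset.Ico 1 (m + 1),
      ((6 * ℘[L] ((k : ℂ) * t₀) ^ 2 - L.g₂ / 2) / (℘[L] z - ℘[L] ((k : ℂ) * t₀)) +
        ℘'[L] ((k : ℂ) * t₀) ^ 2 / (℘[L] z - ℘[L] ((k : ℂ) * t₀)) ^ 2) :=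
  h.velu_form (addFormula L) (eqIff L) hp hz

end IsCyclicSup

/-- The standard instance: `L' = ℤ ω₁ + ℤ ω₂/p`. -/
theorem isCyclicSup_of_basis (L L' : PeriodPair) {p : ℕ} (hp : 0 < p) (h₁ : L'.ω₁ = L.ω₁)
    (h₂ : L.ω₂ = (p : ℂ) * L'.ω₂) : IsCyclicSup L L' p L'.ω₂ where
  le := by
    intro l hl
    obtain ⟨a, b, rfl⟩ := PeriodPair.mem_lattice.mp hl
    refine PeriodPair.mem_lattice.mpr ⟨a, b * p, ?_⟩
    rw [h₁, h₂]; push_cast; ring
  mem := L'.ω₂_mem_lattice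
  cover := by
    intro l' hl'
    obtain ⟨a, b, rfl⟩ := PeriodPair.mem_lattice.mp hl'
    have hp' : (p : ℤ) ≠ 0 := by exact_mod_cast hp.ne'
    refine ⟨(b % p).toNat, ?_, ?_⟩
    · have h1 : b % p < p := Int.emod_lt_of_pos b (by exact_mod_cast hp)
      have h0 : 0 ≤ b % p := Int.emod_nonneg b hp'
      omega
    · refine PeriodPair.mem_lattice.mpr ⟨a, b / p, ?_⟩
      have h0 : 0 ≤ b % p := Int.emod_nonneg b hp'
      have hcast : (((b % p).toNat : ℕ) : ℂ) = ((b % p : ℤ) : ℂ) := by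
        rw [← Int.cast_natCast, Int.toNat_of_nonneg h0]
      have hb : (b : ℂ) = ((b / p : ℤ) : ℂ) * p + ((b % p : ℤ) : ℂ) := by
        have := Int.mul_ediv_add_emod b p
        have h' : (b : ℂ) = (((p : ℤ) * (b / p) + b % p : ℤ) : ℂ) := by rw [this]
        rw [h']; push_cast; ring
      rw [hcast, h₁, h₂, hb]
      ring
  order := by
    intro k hk0 hkp hmem
    have hrat : ((0 : ℚ) : ℂ) * L.ω₁ + (((k : ℚ) / p : ℚ) : ℂ) * L.ω₂ ∈ L.lattice := by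
      have hpc : (p : ℂ) ≠ 0 := by exact_mod_cast hp.ne'
      have e : ((0 : ℚ) : ℂ) * L.ω₁ + (((k : ℚ) / p : ℚ) : ℂ) * L.ω₂ = (k : ℂ) * L'.ω₂ := by
        rw [h₂]; push_cast; field_simp; ring
      rw [e]; exact hmem
    have hden := (PeriodPair.mul_ω₁_add_mul_ω₂_mem_lattice (L := L)).mp hrat
    have hq : ((k : ℚ) / p).den = 1 := hden.2
    -- `k / p` is an integer with `0 < k < p`: impossible
    have hint : ∃ n : ℤ, ((k : ℚ) / p) = n := ⟨((k : ℚ) / p).num, by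
      conv_lhs => rw [← Rat.num_div_den ((k : ℚ) / p), hq]
      simp⟩
    obtain ⟨n, hn⟩ := hint
    have hpq : (p : ℚ) ≠ 0 := by exact_mod_cast hp.ne'
    have hk : (k : ℚ) = n * p := by
      field_simp at hn
      rw [hn]; ring
    have hkz : (k : ℤ) = n * p := by exact_mod_cast hk
    have hn0 : 0 < n := by
      by_contra hcon
      rw [not_lt] at hcon
      have : (k : ℤ) ≤ 0 := by
        rw [hkz]; exact mul_nonpos_of_nonpos_of_nonneg hcon (by positivity)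
      omega
    have : (p : ℤ) ≤ k := by
      rw [hkz]; nlinarith
    omega
  pmul := by
    rw [← h₂]; exact L.ω₂_mem_lattice

end Fermat.Agent.MAZ.EF86
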