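/-
MAZ moduli side, E3 chain (report 1165): HALF A of the assembly and the FINAL statement (helper86).

HALF A: from AN-FINAL (`Unif18.exists_tau_moduli`, helper18), RAT (`EF86.Rat.exists_rat`), VAL
(`Val18.valHyp`, helper18) and D2' (`SmoothPt61.galois_fixed_of_val2`, helper61 + helper58 +
helper18) we produce the `Gal(ℚbar/ℚ)`-fixed place `x` of `FF p` attached to `(W, ⟨Q⟩)`, with
`j(x) = j_W` and `(Δ(q)/Δ(q^p))(x) = ModInv.Uinv E Q p`.

FINAL: with HALF B (`E3Asm58.e3Place_of_halfA`, helper58; uses LOC = `Loc44`, helper44) this gives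
`E3Asm58.E3Place p W Q` = the arguments `x`, `hxfix`, `hx` of `Endgame88.s15_of_inputs(_order)`, with
the single remaining hypothesis `E3Asm58.D3Hyp p` (link (7), D3').
-/
import Mathlib
import Fermat.Agent.MAZ.Unif18.BridgeFinal
import Fermat.Agent.MAZ.EF86.Rat
import Fermat.Agent.MAZ.SmoothPt61.D2Prime
import Fermat.Agent.MAZ.Val18.Main
import Fermat.Agent.MAZ.E3Asm58.HalfB

set_option autoImplicit false
set_option synthInstance.maxHeartbeats 400000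

open UpperHalfPlane AlgebraicCurve ModularCurve
open WeierstrassCurve WeierstrassCurve.Affine

noncomputable section

namespace Fermat.Agent.MAZ.EF86.E3Final

open Fermat.Agent.X0 Fermat.Agent.X0.Analytic
open Fermat.Agent.RED.BASE.DeltaMem19
open Fermat.Agent.MW.Bridge34
open Fermat.Agent.MAZ.SmoothPt61 Fermat.Agent.MAZ.RedFibre34 Fermat.Agent.MAZ.E3Asm58

variable {p : ℕ} [NeZero p]

/-- `v₂(j_W) < 0` when `W` has multiplicative reduction at `2`. -/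
theorem one_lt_padicValuation_j (W : WeierstrassCurve ℤ) (hΔ : W.Δ ≠ 0)
    (h2Δ : (2 : ℤ) ∣ W.Δ) (h2c₄ : ¬ (2 : ℤ) ∣ W.c₄) :
    1 < Rat.padicValuation 2
      ((W.map (Int.castRingHom ℚ)).c₄ ^ 3 / (W.map (Int.castRingHom ℚ)).Δ) := by
  have h2c : ¬ (2 : ℤ) ∣ W.c₄ ^ 3 := fun h => h2c₄ (Int.prime_two.dvd_of_dvd_pow h)
  have := NP58.one_lt_padicValuation_div hΔ h2Δ h2c
  rw [WeierstrassCurve.map_c₄, WeierstrassCurve.map_Δ]
  simpa using this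

/-- **E3, HALF A**: the Galois-fixed moduli place. -/
theorem exists_fixed_place (hp : p.Prime) (hp2 : p ≠ 2) (W : WeierstrassCurve ℤ) (hΔ : W.Δ ≠ 0)
    (Q : ((W.map (Int.castRingHom ℚ))⁄(AlgebraicClosure ℚ)).Point)
    (hQfix : ∀ σ : AlgebraicClosure ℚ ≃ₐ[ℚ] AlgebraicClosure ℚ, σ • Q = Q)
    (hQord : addOrderOf Q = p)
    (h2Δ : (2 : ℤ) ∣ W.Δ) (h2c₄ : ¬ (2 : ℤ) ∣ W.c₄) :
    ∃ x : Place (AlgebraicClosure ℚ) (FF p),
      (∀ σ : AlgebraicClosure ℚ ≃ₐ[ℚ] AlgebraicClosure ℚ,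
        arithmeticGalois (modularFunctionFieldFull p) σ • x = x) ∧
      IsVal x (jL (AlgebraicClosure ℚ) p) (algebraMap ℚ (AlgebraicClosure ℚ)
        ((W.map (Int.castRingHom ℚ)).c₄ ^ 3 / (W.map (Int.castRingHom ℚ)).Δ)) ∧
      IsVal x (uInvF p)
        (ModInv.Uinv ((W.map (Int.castRingHom ℚ)).baseChange (AlgebraicClosure ℚ)) Q p) := by
  have hΔ' : (W.map (Int.castRingHom ℚ)).Δ ≠ 0 := by
    rw [WeierstrassCurve.map_Δ]
    simpa using hΔ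
  obtain ⟨τ, hj, hb, hU⟩ :=
    Unif18.exists_tau_moduli (W.map (Int.castRingHom ℚ)) hΔ' hp hp2 Q hQord
  obtain ⟨b, U, hbq, -⟩ := Rat.exists_rat hQfix p
  obtain ⟨x, hxa, hxb, hxU⟩ := Val18.valHyp p τ _ _ _ hj hb hU
  rw [hbq] at hxb
  refine ⟨x, fun σ => galois_fixed_of_val2 p hp hp2 _ b
    (one_lt_padicValuation_j W hΔ h2Δ h2c₄) x hxa hxb σ, ?_, hxU⟩
  rw [← jF_eq_jL]
  exact isVal_iff_ord.2 (Or.inr hxa)

/-- **(E3)**, place form, from the single remaining hypothesis `D3Hyp p` (link (7)). -/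
theorem e3 (hp : p.Prime) (hp2 : p ≠ 2) (hD3 : D3Hyp p) (W : WeierstrassCurve ℤ) (hΔ : W.Δ ≠ 0)
    (Q : ((W.map (Int.castRingHom ℚ))⁄(AlgebraicClosure ℚ)).Point)
    (hQfix : ∀ σ : AlgebraicClosure ℚ ≃ₐ[ℚ] AlgebraicClosure ℚ, σ • Q = Q)
    (hQord : addOrderOf Q = p)
    (h2Δ : (2 : ℤ) ∣ W.Δ) (h2c₄ : ¬ (2 : ℤ) ∣ W.c₄) :
    E3Place p W Q :=
  e3Place_of_halfA p hp hp2 W hΔ Q hQord hD3
    (exists_fixed_place hp hp2 W hΔ Q hQfix hQord h2Δ h2c₄)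

end Fermat.Agent.MAZ.EF86.E3Final
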