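/-
MAZ / F-DQ (helper86): coset decomposition of the Weierstrass `℘`-function of a lattice `L'`
containing `L` with cyclic quotient generated by `t₀` of exact order `p`:

  `℘[L'] z = ∑_{k < p} (℘[L] (z - k t₀) - ℘[L] (k t₀))`.

Mathlib only.
-/
import Mathlib

set_option autoImplicit false

open scoped PeriodPair

noncomputable section

namespace Fermat.Agent.MAZ.EF86

/-- `L'.lattice = L.lattice + ℤ t₀`, with `t₀` of exact order `p` modulo `L.lattice`. -/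
structure IsCyclicSup (L L' : PeriodPair) (p : ℕ) (t₀ : ℂ) : Prop where
  le : L.lattice ≤ L'.lattice
  mem : t₀ ∈ L'.lattice
  cover : ∀ l' ∈ L'.lattice, ∃ k : ℕ, k < p ∧ l' - (k : ℂ) * t₀ ∈ L.lattice
  order : ∀ k : ℕ, 0 < k → k < p → (k : ℂ) * t₀ ∉ L.lattice
  pmul : (p : ℂ) * t₀ ∈ L.lattice

namespace IsCyclicSup

variable {L L' : PeriodPair} {p : ℕ} {t₀ : ℂ}

theorem natCast_mul_mem (h : IsCyclicSup L L' p t₀) (k : ℕ) : (k : ℂ) * t₀ ∈ L'.lattice := by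
  have := L'.lattice.smul_mem (k : ℤ) h.mem
  simpa [zsmul_eq_mul] using this

theorem intCast_mul_mem (h : IsCyclicSup L L' p t₀) (k : ℤ) : (k : ℂ) * t₀ ∈ L'.lattice := by
  have := L'.lattice.smul_mem k h.mem
  simpa [zsmul_eq_mul] using this

theorem pos (h : IsCyclicSup L L' p t₀) : 0 < p := by
  obtain ⟨k, hk, -⟩ := h.cover 0 (zero_mem _)
  omega

/-- If `(a - b) t₀ ∈ L` with `a, b < p` then `a = b`. -/
theorem eq_of_sub_mem (h : IsCyclicSup L L' p t₀) {a b : ℕ} (ha : a < p) (hb : b < p)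
    (hab : ((a : ℂ) - b) * t₀ ∈ L.lattice) : a = b := by
  by_contra hne
  rcases Nat.lt_or_gt_of_ne hne with hlt | hlt
  · -- b - a > 0
    have hk : ((b - a : ℕ) : ℂ) * t₀ ∈ L.lattice := by
      have : ((b - a : ℕ) : ℂ) * t₀ = -(((a : ℂ) - b) * t₀) := by
        rw [Nat.cast_sub hlt.le]; ring
      rw [this]; exact neg_mem hab
    exact h.order (b - a) (by omega) (by omega) hk
  · have hk : ((a - b : ℕ) : ℂ) * t₀ ∈ L.lattice := by
      have : ((a - b : ℕ) : ℂ) * t₀ = ((a : ℂ) - b) * t₀ := by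
        rw [Nat.cast_sub hlt.le]
      rw [this]; exact hab
    exact h.order (a - b) (by omega) (by omega) hk

/-- The coset map `(k, l) ↦ l + k t₀`. -/
def cosetMap (h : IsCyclicSup L L' p t₀) : Fin p × L.lattice → L'.lattice := fun x =>
  ⟨(x.2 : ℂ) + (x.1 : ℕ) * t₀, add_mem (h.le x.2.2) (h.natCast_mul_mem _)⟩

theorem cosetMap_bijective (h : IsCyclicSup L L' p t₀) : Function.Bijective h.cosetMap := by
  constructor
  · rintro ⟨k, l⟩ ⟨k', l'⟩ hkl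
    have hval : (l : ℂ) + (k : ℕ) * t₀ = (l' : ℂ) + (k' : ℕ) * t₀ := congrArg Subtype.val hkl
    have hmem : (((k : ℕ) : ℂ) - ((k' : ℕ) : ℂ)) * t₀ ∈ L.lattice := by
      have : (((k : ℕ) : ℂ) - ((k' : ℕ) : ℂ)) * t₀ = (l' : ℂ) - l := by linear_combination hval
      rw [this]; exact sub_mem l'.2 l.2
    have hk : (k : ℕ) = (k' : ℕ) := h.eq_of_sub_mem k.2 k'.2 hmem
    have hk' : k = k' := Fin.ext hk
    subst hk'
    have hl : (l : ℂ) = l' := by linear_combination hval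
    exact Prod.ext rfl (Subtype.ext hl)
  · rintro ⟨l', hl'⟩
    obtain ⟨k, hk, hmem⟩ := h.cover l' hl'
    refine ⟨(⟨k, hk⟩, ⟨l' - (k : ℂ) * t₀, hmem⟩), Subtype.ext ?_⟩
    simp [cosetMap]

/-- The coset equivalence `Fin p × L ≃ L'`. -/
def cosetEquiv (h : IsCyclicSup L L' p t₀) : Fin p × L.lattice ≃ L'.lattice :=
  Equiv.ofBijective h.cosetMap h.cosetMap_bijective

@[simp] theorem coe_cosetEquiv (h : IsCyclicSup L L' p t₀) (x : Fin p × L.lattice) :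
    ((h.cosetEquiv x : L'.lattice) : ℂ) = (x.2 : ℂ) + (x.1 : ℕ) * t₀ := rfl

/-- The fibre sums. -/
theorem hasSum_fibre (L : PeriodPair) (z c : ℂ) :
    HasSum (fun l : L.lattice => 1 / (z - ((l : ℂ) + c)) ^ 2 - 1 / ((l : ℂ) + c) ^ 2)
      (℘[L] (z - c) - ℘[L] c) := by
  have h1 := L.hasSum_weierstrassP (z - c)
  have h2 := L.hasSum_weierstrassP (-c)
  rw [L.weierstrassP_neg] at h2
  have hfun : (fun l : L.lattice => 1 / (z - ((l : ℂ) + c)) ^ 2 - 1 / ((l : ℂ) + c) ^ 2) =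
      fun l : L.lattice => (1 / (z - c - (l : ℂ)) ^ 2 - 1 / (l : ℂ) ^ 2) -
        (1 / (-c - (l : ℂ)) ^ 2 - 1 / (l : ℂ) ^ 2) := by
    funext l
    have e1 : z - c - (l : ℂ) = z - ((l : ℂ) + c) := by ring
    have e2 : (-c - (l : ℂ)) ^ 2 = ((l : ℂ) + c) ^ 2 := by ring
    rw [e1, e2]; ring
  rw [hfun]
  exact h1.sub h2

/-- **Coset decomposition of `℘`.** -/
theorem weierstrassP_sup (h : IsCyclicSup L L' p t₀) (z : ℂ) :
    ℘[L'] z = ∑ k ∈ Finset.range p, (℘[L] (z - (k : ℂ) * t₀) - ℘[L] ((k : ℂ) * t₀)) := by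
  have hS := L'.hasSum_weierstrassP z
  rw [← h.cosetEquiv.hasSum_iff] at hS
  have hfib : ∀ k : Fin p, HasSum (fun l : L.lattice =>
      ((fun l' : L'.lattice => 1 / (z - (l' : ℂ)) ^ 2 - 1 / (l' : ℂ) ^ 2) ∘ h.cosetEquiv) (k, l))
      (℘[L] (z - ((k : ℕ) : ℂ) * t₀) - ℘[L] (((k : ℕ) : ℂ) * t₀)) := by
    intro k
    simpa using hasSum_fibre L z (((k : ℕ) : ℂ) * t₀)
  have htot := hS.prod_fiberwise hfib
  have hfin := hasSum_fintype (fun k : Fin p =>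
    (℘[L] (z - ((k : ℕ) : ℂ) * t₀) - ℘[L] (((k : ℕ) : ℂ) * t₀)))
  rw [htot.unique hfin, Fin.sum_univ_eq_sum_range
    (fun k : ℕ => ℘[L] (z - (k : ℂ) * t₀) - ℘[L] ((k : ℂ) * t₀)) p]

end IsCyclicSup

end Fermat.Agent.MAZ.EF86
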