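/-
MAZ / F-DQ (helper86): half-periods.  For three pairwise inequivalent points `T₁ T₂ T₃ ∉ L` with
`2 T_i ∈ L` and `e_i = ℘[L] T_i`:  `℘'(T_i) = 0`, the `e_i` are the three distinct roots of
`4X³ - g₂ X - g₃`, `g₂³ - 27 g₃² = 16 ∏_{i<j} (e_i - e_j)²`, `℘'² = 4 ∏ (℘ - e_i)`, and
`(℘(z + T_j) - e_j)(℘ z - e_j) = (e_j - e_i)(e_j - e_l)`.
Hypotheses: `AddFormula L`, `EqIff L` (see `Velu.lean`).  Mathlib only.
-/
import Mathlib
import Fermat.Agent.MAZ.EF86.Velu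

set_option autoImplicit false

open scoped PeriodPair

noncomputable section

namespace Fermat.Agent.MAZ.EF86

/-- Three pairwise inequivalent half-periods. -/
structure HalfTriple (L : PeriodPair) (T₁ T₂ T₃ : ℂ) : Prop where
  notMem₁ : T₁ ∉ L.lattice
  notMem₂ : T₂ ∉ L.lattice
  notMem₃ : T₃ ∉ L.lattice
  two₁ : 2 * T₁ ∈ L.lattice
  two₂ : 2 * T₂ ∈ L.lattice
  two₃ : 2 * T₃ ∈ L.lattice
  sub₁₂ : T₁ - T₂ ∉ L.lattice
  sub₁₃ : T₁ - T₃ ∉ L.lattice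
  sub₂₃ : T₂ - T₃ ∉ L.lattice

variable {L : PeriodPair}

/-- `℘'` vanishes at a half-period. -/
theorem deriv_eq_zero_of_two_mul_mem {T : ℂ} (h2 : 2 * T ∈ L.lattice) : ℘'[L] T = 0 := by
  have h1 : ℘'[L] (-T) = ℘'[L] T := by
    have e : -T = T - 2 * T := by ring
    rw [e]
    exact L.derivWeierstrassP_sub_coe T ⟨_, h2⟩
  rw [L.derivWeierstrassP_neg] at h1
  have h3 : (2 : ℂ) * ℘'[L] T = 0 := by linear_combination -h1
  exact (mul_eq_zero.mp h3).resolve_left two_ne_zero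

/-- `e = ℘ T` is a root of the cubic. -/
theorem cubic_of_two_mul_mem {T : ℂ} (hT : T ∉ L.lattice) (h2 : 2 * T ∈ L.lattice) :
    4 * ℘[L] T ^ 3 - L.g₂ * ℘[L] T - L.g₃ = 0 := by
  have h := L.derivWeierstrassP_sq T hT
  rw [deriv_eq_zero_of_two_mul_mem h2] at h
  linear_combination -h

theorem wp_ne_of_sub_notMem (heq : EqIff L) {T T' : ℂ} (hT : T ∉ L.lattice) (hT' : T' ∉ L.lattice)
    (h2 : 2 * T' ∈ L.lattice) (hsub : T - T' ∉ L.lattice) : ℘[L] T ≠ ℘[L] T' := by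
  intro he
  rcases heq T T' hT hT' he with h | h
  · exact hsub h
  · apply hsub
    have e : T - T' = T + T' - 2 * T' := by ring
    rw [e]; exact sub_mem h h2

/-! ### Vieta for `4X³ - g₂ X - g₃` with three distinct roots (pure algebra) -/

namespace Cubic

variable {g₂ g₃ a b c : ℂ}

theorem sum_eq_zero (ha : 4 * a ^ 3 - g₂ * a - g₃ = 0) (hb : 4 * b ^ 3 - g₂ * b - g₃ = 0)
    (hc : 4 * c ^ 3 - g₂ * c - g₃ = 0) (hab : a ≠ b) (hac : a ≠ c) (hbc : b ≠ c) :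
    a + b + c = 0 := by
  have h12 := sub_ne_zero.mpr hab
  have h13 := sub_ne_zero.mpr hac
  have h23 := sub_ne_zero.mpr hbc
  have k12 : 4 * (a ^ 2 + a * b + b ^ 2) = g₂ := by
    have : (a - b) * (4 * (a ^ 2 + a * b + b ^ 2) - g₂) = 0 := by linear_combination ha - hb
    have := (mul_eq_zero.mp this).resolve_left h12
    linear_combination this
  have k13 : 4 * (a ^ 2 + a * c + c ^ 2) = g₂ := by
    have : (a - c) * (4 * (a ^ 2 + a * c + c ^ 2) - g₂) = 0 := by linear_combination ha - hc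
    have := (mul_eq_zero.mp this).resolve_left h13
    linear_combination this
  have : (b - c) * (4 * (a + b + c)) = 0 := by linear_combination k12 - k13
  have := (mul_eq_zero.mp this).resolve_left h23
  linear_combination this / 4

theorem g₂_eq (ha : 4 * a ^ 3 - g₂ * a - g₃ = 0) (hb : 4 * b ^ 3 - g₂ * b - g₃ = 0)
    (hc : 4 * c ^ 3 - g₂ * c - g₃ = 0) (hab : a ≠ b) (hac : a ≠ c) (hbc : b ≠ c) :
    g₂ = -4 * (a * b + a * c + b * c) := by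
  have hs := sum_eq_zero ha hb hc hab hac hbc
  have h12 := sub_ne_zero.mpr hab
  have hc' : c = -a - b := by linear_combination hs
  have : (a - b) * (4 * (a ^ 2 + a * b + b ^ 2) - g₂) = 0 := by linear_combination ha - hb
  have k12 := (mul_eq_zero.mp this).resolve_left h12
  rw [hc']
  linear_combination -k12

theorem g₃_eq (ha : 4 * a ^ 3 - g₂ * a - g₃ = 0) (hb : 4 * b ^ 3 - g₂ * b - g₃ = 0)
    (hc : 4 * c ^ 3 - g₂ * c - g₃ = 0) (hab : a ≠ b) (hac : a ≠ c) (hbc : b ≠ c) :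
    g₃ = 4 * (a * b * c) := by
  have hg := g₂_eq ha hb hc hab hac hbc
  have hs := sum_eq_zero ha hb hc hab hac hbc
  have hc' : c = -a - b := by linear_combination hs
  rw [hg, hc'] at ha
  rw [hc']
  linear_combination -ha

theorem disc_eq (ha : 4 * a ^ 3 - g₂ * a - g₃ = 0) (hb : 4 * b ^ 3 - g₂ * b - g₃ = 0)
    (hc : 4 * c ^ 3 - g₂ * c - g₃ = 0) (hab : a ≠ b) (hac : a ≠ c) (hbc : b ≠ c) :
    g₂ ^ 3 - 27 * g₃ ^ 2 = 16 * ((a - b) ^ 2 * (a - c) ^ 2 * (b - c) ^ 2) := by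
  have hs := sum_eq_zero ha hb hc hab hac hbc
  rw [g₂_eq ha hb hc hab hac hbc, g₃_eq ha hb hc hab hac hbc]
  have hc' : c = -a - b := by linear_combination hs
  rw [hc']
  ring

end Cubic

namespace HalfTriple

variable {T₁ T₂ T₃ : ℂ}

theorem swap₁₂ (h : HalfTriple L T₁ T₂ T₃) : HalfTriple L T₂ T₁ T₃ where
  notMem₁ := h.notMem₂
  notMem₂ := h.notMem₁
  notMem₃ := h.notMem₃
  two₁ := h.two₂
  two₂ := h.two₁
  two₃ := h.two₃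
  sub₁₂ := fun hm => h.sub₁₂ (by simpa using neg_mem hm)
  sub₁₃ := h.sub₂₃
  sub₂₃ := h.sub₁₃

theorem swap₂₃ (h : HalfTriple L T₁ T₂ T₃) : HalfTriple L T₁ T₃ T₂ where
  notMem₁ := h.notMem₁
  notMem₂ := h.notMem₃
  notMem₃ := h.notMem₂
  two₁ := h.two₁
  two₂ := h.two₃
  two₃ := h.two₂
  sub₁₂ := h.sub₁₃
  sub₁₃ := h.sub₁₂
  sub₂₃ := fun hm => h.sub₂₃ (by simpa using neg_mem hm)

theorem e₁₂ (h : HalfTriple L T₁ T₂ T₃) (heq : EqIff L) : ℘[L] T₁ ≠ ℘[L] T₂ :=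
  wp_ne_of_sub_notMem heq h.notMem₁ h.notMem₂ h.two₂ h.sub₁₂

theorem e₁₃ (h : HalfTriple L T₁ T₂ T₃) (heq : EqIff L) : ℘[L] T₁ ≠ ℘[L] T₃ :=
  wp_ne_of_sub_notMem heq h.notMem₁ h.notMem₃ h.two₃ h.sub₁₃

theorem e₂₃ (h : HalfTriple L T₁ T₂ T₃) (heq : EqIff L) : ℘[L] T₂ ≠ ℘[L] T₃ :=
  wp_ne_of_sub_notMem heq h.notMem₂ h.notMem₃ h.two₃ h.sub₂₃

/-- Vieta: `e₁ + e₂ + e₃ = 0`. -/
theorem sum_eq_zero (h : HalfTriple L T₁ T₂ T₃) (heq : EqIff L) :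
    ℘[L] T₁ + ℘[L] T₂ + ℘[L] T₃ = 0 :=
  Cubic.sum_eq_zero (cubic_of_two_mul_mem h.notMem₁ h.two₁) (cubic_of_two_mul_mem h.notMem₂ h.two₂)
    (cubic_of_two_mul_mem h.notMem₃ h.two₃) (h.e₁₂ heq) (h.e₁₃ heq) (h.e₂₃ heq)

theorem g₂_eq (h : HalfTriple L T₁ T₂ T₃) (heq : EqIff L) :
    L.g₂ = -4 * (℘[L] T₁ * ℘[L] T₂ + ℘[L] T₁ * ℘[L] T₃ + ℘[L] T₂ * ℘[L] T₃) :=
  Cubic.g₂_eq (cubic_of_two_mul_mem h.notMem₁ h.two₁) (cubic_of_two_mul_mem h.notMem₂ h.two₂)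
    (cubic_of_two_mul_mem h.notMem₃ h.two₃) (h.e₁₂ heq) (h.e₁₃ heq) (h.e₂₃ heq)

theorem g₃_eq (h : HalfTriple L T₁ T₂ T₃) (heq : EqIff L) :
    L.g₃ = 4 * (℘[L] T₁ * ℘[L] T₂ * ℘[L] T₃) :=
  Cubic.g₃_eq (cubic_of_two_mul_mem h.notMem₁ h.two₁) (cubic_of_two_mul_mem h.notMem₂ h.two₂)
    (cubic_of_two_mul_mem h.notMem₃ h.two₃) (h.e₁₂ heq) (h.e₁₃ heq) (h.e₂₃ heq)

/-- the discriminant -/
theorem disc_eq (h : HalfTriple L T₁ T₂ T₃) (heq : EqIff L) :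
    L.g₂ ^ 3 - 27 * L.g₃ ^ 2 =
      16 * ((℘[L] T₁ - ℘[L] T₂) ^ 2 * (℘[L] T₁ - ℘[L] T₃) ^ 2 * (℘[L] T₂ - ℘[L] T₃) ^ 2) :=
  Cubic.disc_eq (cubic_of_two_mul_mem h.notMem₁ h.two₁) (cubic_of_two_mul_mem h.notMem₂ h.two₂)
    (cubic_of_two_mul_mem h.notMem₃ h.two₃) (h.e₁₂ heq) (h.e₁₃ heq) (h.e₂₃ heq)

/-- `℘'² = 4 ∏ (℘ - e_i)` -/
theorem deriv_sq (h : HalfTriple L T₁ T₂ T₃) (heq : EqIff L) {z : ℂ} (hz : z ∉ L.lattice) :
    ℘'[L] z ^ 2 = 4 * ((℘[L] z - ℘[L] T₁) * (℘[L] z - ℘[L] T₂) * (℘[L] z - ℘[L] T₃)) := by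
  have hs := h.sum_eq_zero heq
  rw [L.derivWeierstrassP_sq z hz, h.g₂_eq heq, h.g₃_eq heq]
  set a := ℘[L] T₁
  set b := ℘[L] T₂
  set c := ℘[L] T₃
  have hc : c = -a - b := by linear_combination hs
  rw [hc]
  ring

/-- translation by the half-period `T₁`. -/
theorem translate₁ (h : HalfTriple L T₁ T₂ T₃) (hadd : AddFormula L) (heq : EqIff L) {z : ℂ}
    (hz : z ∉ L.lattice) (hzT : z + T₁ ∉ L.lattice) (hne : ℘[L] z ≠ ℘[L] T₁) :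
    (℘[L] (z + T₁) - ℘[L] T₁) * (℘[L] z - ℘[L] T₁) =
      (℘[L] T₁ - ℘[L] T₂) * (℘[L] T₁ - ℘[L] T₃) := by
  have ha := hadd z T₁ hz h.notMem₁ hzT hne
  rw [deriv_eq_zero_of_two_mul_mem h.two₁, sub_zero] at ha
  have hd := h.deriv_sq heq hz
  have hs := h.sum_eq_zero heq
  have hne' : ℘[L] z - ℘[L] T₁ ≠ 0 := sub_ne_zero.mpr hne
  rw [ha]
  set a := ℘[L] T₁
  set b := ℘[L] T₂
  set c := ℘[L] T₃
  set x := ℘[L] z
  set y := ℘'[L] z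
  have hc : c = -a - b := by linear_combination hs
  rw [hc] at hd ⊢
  field_simp
  linear_combination hd

end HalfTriple

end Fermat.Agent.MAZ.EF86
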